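import Fermat.Agent.Mazur.Eleven.TateEleven

/-!
The Tate normal forms over the four relevant rational points of `X₀(11)`: one is singular, the
other three have `j = -32768, -121, -24729001`.
-/

set_option autoImplicit false

namespace Fermat.Agent.Mazur.Eleven

/-- `c₄` of the Tate normal form. -/
def tateC4 {F : Type*} [Field F] (b c : F) : F :=
  ((1 - c) ^ 2 - 4 * b) ^ 2 - 24 * (-(b * (1 - c)))

/-- The discriminant of the Tate normal form. -/
def tateDisc {F : Type*} [Field F] (b c : F) : F :=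
  ((1 - c) ^ 2 - 4 * b) ^ 2 * b ^ 3 - 8 * (-(b * (1 - c))) ^ 3 - 27 * b ^ 4
    + 9 * ((1 - c) ^ 2 - 4 * b) * (-(b * (1 - c))) * b ^ 2

variable {F : Type*} [Field F] [CharZero F] {x y : F}


lemma five_pos (hx : x ≠ 0) (hx1 : x - 1 ≠ 0) (hX : x0Fun x = 5)
    (hW : (2 * y - 1) * x0Der x = (11 : F)) {b c : F}
    (hc : c = (1 - y / x) * -y) (hb : b = (1 - y) * (1 - y / x) * -y) :
    tateC4 b c ^ 3 = (-32768 : F) * tateDisc b c := by
  have hq : ((1 : F) * x ^ 5 + (-7 : F) * x ^ 4 + (13 : F) * x ^ 3 + (-5 : F) * x ^ 2 + (-2 : F) * x + (1 : F)) = 0 := by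
    simp only [x0Fun] at hX; field_simp at hX; linear_combination hX
  have he : (2 * y - 1) * ((1 : F) * x ^ 6 + (-3 : F) * x ^ 5 + (1 : F) * x ^ 4 + (-3 : F) * x ^ 3 + (6 : F) * x ^ 2 + (-6 : F) * x + (2 : F)) - (11 : F) * ((1 : F) * x ^ 6 + (-3 : F) * x ^ 5 + (3 : F) * x ^ 4 + (-1 : F) * x ^ 3) = 0 := by
    simp only [x0Der] at hW; field_simp at hW; linear_combination hW
  have hy : y = ((1 : F) * x ^ 4 + (-6 : F) * x ^ 3 + (8 : F) * x ^ 2 + (-1 : F)) := by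
    linear_combination (((-107 : F) / 22) * x ^ 4 + ((691 : F) / 22) * x ^ 3 + ((-1017 : F) / 22) * x ^ 2 + ((-13 : F) / 22) * x + ((102 : F) / 11)) * he + ((((-107 : F) / 2) * x ^ 5 + ((263 : F) / 2) * x ^ 4 + ((-179 : F) / 2) * x ^ 3 + ((11 : F) / 2) * x ^ 2 + (3 : F) * x + ((3 : F) / 2)) - (y - (1 : F) / 2) * (((-107 : F) / 11) * x ^ 5 + ((263 : F) / 11) * x ^ 4 + ((35 : F) / 11) * x ^ 3 + (31 : F) * x ^ 2 + ((-456 : F) / 11) * x + ((397 : F) / 11))) * hq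
  have hxi : x * ((-1 : F) * x ^ 4 + (7 : F) * x ^ 3 + (-13 : F) * x ^ 2 + (5 : F) * x + (2 : F)) = 1 := by linear_combination ((-1 : F)) * hq
  have hyx : y / x = y * ((-1 : F) * x ^ 4 + (7 : F) * x ^ 3 + (-13 : F) * x ^ 2 + (5 : F) * x + (2 : F)) := by
    rw [div_eq_iff hx]; linear_combination (-y) * hxi
  have hs : 1 - y / x = ((-1 : F) * x ^ 4 + (6 : F) * x ^ 3 + (-7 : F) * x ^ 2 + (-3 : F) * x + (3 : F)) := by
    rw [hyx, hy]; linear_combination ((1 : F) * x ^ 3 + (-6 : F) * x ^ 2 + (8 : F) * x) * hq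
  have hc' : c = ((2 : F) * x + (-1 : F)) := by
    rw [hc, hs, hy]; linear_combination ((1 : F) * x ^ 3 + (-5 : F) * x ^ 2 + (3 : F) * x + (4 : F)) * hq
  have hb' : b = ((-1 : F) * x ^ 4 + (4 : F) * x ^ 3 + (-2 : F) * x ^ 2) := by
    rw [hb, mul_assoc, ← hc, hc', hy]; linear_combination ((-2 : F)) * hq
  have h2 : (1 - c) ^ 2 - 4 * b = ((4 : F) * x ^ 4 + (-16 : F) * x ^ 3 + (12 : F) * x ^ 2 + (-8 : F) * x + (4 : F)) := by
    rw [hc', hb']; linear_combination (0 : F) * hq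
  have h4 : -(b * (1 - c)) = ((-4 : F) * x ^ 4 + (14 : F) * x ^ 3 + (-6 : F) * x ^ 2 + (-4 : F) * x + (2 : F)) := by
    rw [hc', hb']; linear_combination ((-2 : F)) * hq
  have hd : tateDisc b c = ((-87105762 : F) * x ^ 4 + (241395097 : F) * x ^ 3 + (-111583442 : F) * x ^ 2 + (-36326119 : F) * x + (20598619 : F)) := by
    rw [tateDisc, h2, h4, hb']; linear_combination ((-16 : F) * x ^ 15 + (208 : F) * x ^ 14 + (-1088 : F) * x ^ 13 + (2976 : F) * x ^ 12 + (-5067 : F) * x ^ 11 + (7211 : F) * x ^ 10 + (-9940 : F) * x ^ 9 + (9574 : F) * x ^ 8 + (-6921 : F) * x ^ 7 + (-2264 : F) * x ^ 6 + (-14792 : F) * x ^ 5 + (-63533 : F) * x ^ 4 + (-273451 : F) * x ^ 3 + (-1151891 : F) * x ^ 2 + (-4870863 : F) * x + (-20598683 : F)) * hq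
  have hk : tateC4 b c = ((512 : F) * x ^ 4 + (-1376 : F) * x ^ 3 + (704 : F) * x ^ 2 + (128 : F) * x + (-96 : F)) := by
    rw [tateC4, h2, h4]; linear_combination ((16 : F) * x ^ 3 + (-16 : F) * x ^ 2 + (32 : F) * x + (64 : F)) * hq
  rw [hk, hd]; linear_combination ((134217728 : F) * x ^ 7 + (-142606336 : F) * x ^ 6 + (718798848 : F) * x ^ 5 + (2076082176 : F) * x ^ 4 + (8887107584 : F) * x ^ 3 + (37759025152 : F) * x ^ 2 + (159618596864 : F) * x + (674974662656 : F)) * hq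


lemma five_neg (hx : x ≠ 0) (hx1 : x - 1 ≠ 0) (hX : x0Fun x = 5)
    (hW : (2 * y - 1) * x0Der x = (-11 : F)) {b c : F}
    (hc : c = (1 - y / x) * -y) (hb : b = (1 - y) * (1 - y / x) * -y) :
    tateC4 b c ^ 3 = (-121 : F) * tateDisc b c := by
  have hq : ((1 : F) * x ^ 5 + (-7 : F) * x ^ 4 + (13 : F) * x ^ 3 + (-5 : F) * x ^ 2 + (-2 : F) * x + (1 : F)) = 0 := by
    simp only [x0Fun] at hX; field_simp at hX; linear_combination hX
  have he : (2 * y - 1) * ((1 : F) * x ^ 6 + (-3 : F) * x ^ 5 + (1 : F) * x ^ 4 + (-3 : F) * x ^ 3 + (6 : F) * x ^ 2 + (-6 : F) * x + (2 : F)) - (-11 : F) * ((1 : F) * x ^ 6 + (-3 : F) * x ^ 5 + (3 : F) * x ^ 4 + (-1 : F) * x ^ 3) = 0 := by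
    simp only [x0Der] at hW; field_simp at hW; linear_combination hW
  have hy : y = ((-1 : F) * x ^ 4 + (6 : F) * x ^ 3 + (-8 : F) * x ^ 2 + (2 : F)) := by
    linear_combination (((-107 : F) / 22) * x ^ 4 + ((691 : F) / 22) * x ^ 3 + ((-1017 : F) / 22) * x ^ 2 + ((-13 : F) / 22) * x + ((102 : F) / 11)) * he + ((((107 : F) / 2) * x ^ 5 + ((-263 : F) / 2) * x ^ 4 + ((179 : F) / 2) * x ^ 3 + ((-11 : F) / 2) * x ^ 2 + (-3 : F) * x + ((-3 : F) / 2)) - (y - (1 : F) / 2) * (((-107 : F) / 11) * x ^ 5 + ((263 : F) / 11) * x ^ 4 + ((35 : F) / 11) * x ^ 3 + (31 : F) * x ^ 2 + ((-456 : F) / 11) * x + ((397 : F) / 11))) * hq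
  have hxi : x * ((-1 : F) * x ^ 4 + (7 : F) * x ^ 3 + (-13 : F) * x ^ 2 + (5 : F) * x + (2 : F)) = 1 := by linear_combination ((-1 : F)) * hq
  have hyx : y / x = y * ((-1 : F) * x ^ 4 + (7 : F) * x ^ 3 + (-13 : F) * x ^ 2 + (5 : F) * x + (2 : F)) := by
    rw [div_eq_iff hx]; linear_combination (-y) * hxi
  have hs : 1 - y / x = ((2 : F) * x ^ 4 + (-13 : F) * x ^ 3 + (20 : F) * x ^ 2 + (-2 : F) * x + (-3 : F)) := by
    rw [hyx, hy]; linear_combination ((-1 : F) * x ^ 3 + (6 : F) * x ^ 2 + (-8 : F) * x) * hq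
  have hc' : c = ((-1 : F) * x ^ 4 + (7 : F) * x ^ 3 + (-11 : F) * x ^ 2 + (1 : F) * x + (2 : F)) := by
    rw [hc, hs, hy]; linear_combination ((2 : F) * x ^ 3 + (-11 : F) * x ^ 2 + (11 : F) * x + (4 : F)) * hq
  have hb' : b = ((1 : F) * x ^ 4 + (-2 : F) * x ^ 3 + (-1 : F) * x ^ 2 + (1 : F) * x) := by
    rw [hb, mul_assoc, ← hc, hc', hy]; linear_combination ((-1 : F) * x ^ 3 + (6 : F) * x ^ 2 + (-6 : F) * x + (-2 : F)) * hq
  have h2 : (1 - c) ^ 2 - 4 * b = ((-9 : F) * x ^ 3 + (23 : F) * x ^ 2 + (-5 : F) * x + (-2 : F)) := by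
    rw [hc', hb']; linear_combination ((1 : F) * x ^ 3 + (-7 : F) * x ^ 2 + (9 : F) * x + (3 : F)) * hq
  have h4 : -(b * (1 - c)) = ((21 : F) * x ^ 4 + (-59 : F) * x ^ 3 + (29 : F) * x ^ 2 + (8 : F) * x + (-5 : F)) := by
    rw [hc', hb']; linear_combination ((-1 : F) * x ^ 3 + (2 : F) * x ^ 2 + (3 : F) * x + (5 : F)) * hq
  have hd : tateDisc b c = ((-375123865 : F) * x ^ 4 + (1039577950 : F) * x ^ 3 + (-480539085 : F) * x ^ 2 + (-156439964 : F) * x + (88708868 : F)) := by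
    rw [tateDisc, h2, h4, hb']; linear_combination ((81 : F) * x ^ 13 + (-333 : F) * x ^ 12 + (421 : F) * x ^ 11 + (-871 : F) * x ^ 10 + (4386 : F) * x ^ 9 + (-219 : F) * x ^ 8 + (-70705 : F) * x ^ 7 + (148804 : F) * x ^ 6 + (-192848 : F) * x ^ 5 + (-278182 : F) * x ^ 4 + (-1133695 : F) * x ^ 3 + (-4971029 : F) * x ^ 2 + (-20980572 : F) * x + (-88707868 : F)) * hq
  have hk : tateC4 b c = ((133 : F) * x ^ 4 + (-362 : F) * x ^ 3 + (164 : F) * x ^ 2 + (53 : F) * x + (-29 : F)) := by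
    rw [tateC4, h2, h4]; linear_combination ((81 : F) * x + (153 : F)) * hq
  rw [hk, hd]; linear_combination ((2352637 : F) * x ^ 7 + (-2741795 : F) * x ^ 6 + (11212698 : F) * x ^ 5 + (33894365 : F) * x ^ 4 + (140847561 : F) * x ^ 3 + (600474005 : F) * x ^ 2 + (2538395353 : F) * x + (10733748639 : F)) * hq


lemma sixteen_pos (hx : x ≠ 0) (hx1 : x - 1 ≠ 0) (hX : x0Fun x = 16)
    (hW : (2 * y - 1) * x0Der x = (121 : F)) {b c : F}
    (hc : c = (1 - y / x) * -y) (hb : b = (1 - y) * (1 - y / x) * -y) :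
    tateC4 b c ^ 3 = (-24729001 : F) * tateDisc b c := by
  have hq : ((1 : F) * x ^ 5 + (-18 : F) * x ^ 4 + (35 : F) * x ^ 3 + (-16 : F) * x ^ 2 + (-2 : F) * x + (1 : F)) = 0 := by
    simp only [x0Fun] at hX; field_simp at hX; linear_combination hX
  have he : (2 * y - 1) * ((1 : F) * x ^ 6 + (-3 : F) * x ^ 5 + (1 : F) * x ^ 4 + (-3 : F) * x ^ 3 + (6 : F) * x ^ 2 + (-6 : F) * x + (2 : F)) - (121 : F) * ((1 : F) * x ^ 6 + (-3 : F) * x ^ 5 + (3 : F) * x ^ 4 + (-1 : F) * x ^ 3) = 0 := by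
    simp only [x0Der] at hW; field_simp at hW; linear_combination hW
  have hy : y = (((3 : F) / 11) * x ^ 4 + ((-52 : F) / 11) * x ^ 3 + ((74 : F) / 11) * x ^ 2 + ((-17 : F) / 11) * x + ((1 : F) / 11)) := by
    linear_combination (((-665 : F) / 2662) * x ^ 4 + ((11611 : F) / 2662) * x ^ 3 + ((-8517 : F) / 1331) * x ^ 2 + ((951 : F) / 1331) * x + ((980 : F) / 1331)) * he + ((((-665 : F) / 22) * x ^ 5 + ((818 : F) / 11) * x ^ 4 + ((-1139 : F) / 22) * x ^ 3 + ((50 : F) / 11) * x ^ 2 + ((26 : F) / 11) * x + ((9 : F) / 22)) - (y - (1 : F) / 2) * (((-665 : F) / 1331) * x ^ 5 + ((1636 : F) / 1331) * x ^ 4 + ((191 : F) / 1331) * x ^ 3 + ((2148 : F) / 1331) * x ^ 2 + ((-2778 : F) / 1331) * x + ((2589 : F) / 1331))) * hq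
  have hxi : x * ((-1 : F) * x ^ 4 + (18 : F) * x ^ 3 + (-35 : F) * x ^ 2 + (16 : F) * x + (2 : F)) = 1 := by linear_combination ((-1 : F)) * hq
  have hyx : y / x = y * ((-1 : F) * x ^ 4 + (18 : F) * x ^ 3 + (-35 : F) * x ^ 2 + (16 : F) * x + (2 : F)) := by
    rw [div_eq_iff hx]; linear_combination (-y) * hxi
  have hs : 1 - y / x = (((1 : F) / 11) * x ^ 4 + ((-21 : F) / 11) * x ^ 3 + ((87 : F) / 11) * x ^ 2 + ((-90 : F) / 11) * x + ((26 : F) / 11)) := by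
    rw [hyx, hy]; linear_combination (((3 : F) / 11) * x ^ 3 + ((-52 : F) / 11) * x ^ 2 + ((74 : F) / 11) * x + ((-17 : F) / 11)) * hq
  have hc' : c = (((-4 : F) / 11) * x ^ 4 + ((73 : F) / 11) * x ^ 3 + ((-150 : F) / 11) * x ^ 2 + ((96 : F) / 11) * x + ((-16 : F) / 11)) := by
    rw [hc, hs, hy]; linear_combination (((-3 : F) / 121) * x ^ 3 + ((61 : F) / 121) * x ^ 2 + ((-224 : F) / 121) * x + ((150 : F) / 121)) * hq
  have hb' : b = (((-3 : F) / 11) * x ^ 4 + ((19 : F) / 11) * x ^ 3 + ((-19 : F) / 11) * x ^ 2 + ((6 : F) / 11) * x + ((-1 : F) / 11)) := by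
    rw [hb, mul_assoc, ← hc, hc', hy]; linear_combination (((12 : F) / 121) * x ^ 3 + ((-211 : F) / 121) * x ^ 2 + ((324 : F) / 121) * x + ((-149 : F) / 121)) * hq
  have h2 : (1 - c) ^ 2 - 4 * b = (((43 : F) / 11) * x ^ 4 + ((-540 : F) / 11) * x ^ 3 + ((1046 : F) / 11) * x ^ 2 + ((-647 : F) / 11) * x + ((117 : F) / 11)) := by
    rw [hc', hb']; linear_combination (((16 : F) / 121) * x ^ 3 + ((-296 : F) / 121) * x ^ 2 + ((641 : F) / 121) * x + ((-514 : F) / 121)) * hq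
  have h4 : -(b * (1 - c)) = (((-380 : F) / 11) * x ^ 4 + ((786 : F) / 11) * x ^ 3 + ((-324 : F) / 11) * x ^ 2 + ((-87 : F) / 11) * x + ((31 : F) / 11)) := by
    rw [hc', hb']; linear_combination (((12 : F) / 121) * x ^ 3 + ((-79 : F) / 121) * x ^ 2 + ((71 : F) / 121) * x + ((-314 : F) / 121)) * hq
  have hd : tateDisc b c = ((-127980445302135670 : F) * x ^ 4 + (274278141578610853 : F) * x ^ 3 + (-130121485930481096 : F) * x ^ 2 + (-15632961807123841 : F) * x + (8070975424790512 : F)) := by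
    rw [tateDisc, h2, h4, hb']; linear_combination (((-49923 : F) / 161051) * x ^ 15 + ((1303803 : F) / 161051) * x ^ 14 + ((-15865911 : F) / 161051) * x ^ 13 + ((95427562 : F) / 161051) * x ^ 12 + ((-488702883 : F) / 161051) * x ^ 11 + ((-13638758 : F) / 14641) * x ^ 10 + ((-2108703437 : F) / 14641) * x ^ 9 + ((-29417021009 : F) / 14641) * x ^ 8 + ((-468100676368 : F) / 14641) * x ^ 7 + ((-7434776149606 : F) / 14641) * x ^ 6 + ((-117870902883658 : F) / 14641) * x ^ 5 + ((-20559806271544830 : F) / 161051) * x ^ 4 + ((-326014321364218623 : F) / 161051) * x ^ 3 + ((-5169568170433996633 : F) / 161051) * x ^ 2 + ((-81973194276592867119 : F) / 161051) * x + ((-1299838663137965240713 : F) / 161051)) * hq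
  have hk : tateC4 b c = (((1118347 : F) / 11) * x ^ 4 + ((-2409221 : F) / 11) * x ^ 3 + ((1167079 : F) / 11) * x ^ 2 + ((116459 : F) / 11) * x + ((-67203 : F) / 11)) := by
    rw [tateC4, h2, h4]; linear_combination (((1849 : F) / 121) * x ^ 3 + ((-13158 : F) / 121) * x ^ 2 + ((79997 : F) / 121) * x + ((744738 : F) / 121)) * hq
  rw [hk, hd]; linear_combination (((1398716606777567923 : F) / 1331) * x ^ 7 + ((16137260718208152447 : F) / 1331) * x ^ 6 + ((265368427077109172155 : F) / 1331) * x ^ 5 + ((4201792960566537370607 : F) / 1331) * x ^ 4 + ((66628129312870230291618 : F) / 1331) * x ^ 3 + ((1056514526369034380308772 : F) / 1331) * x ^ 2 + ((16753018209594692789109512 : F) / 1331) * x + ((265650509095371709634885045 : F) / 1331)) * hq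


lemma sixteen_neg (hx : x ≠ 0) (hx1 : x - 1 ≠ 0) (hX : x0Fun x = 16)
    (hW : (2 * y - 1) * x0Der x = (-121 : F)) {b c : F}
    (hc : c = (1 - y / x) * -y) (hb : b = (1 - y) * (1 - y / x) * -y) :
    tateDisc b c = 0 := by
  have hq : ((1 : F) * x ^ 5 + (-18 : F) * x ^ 4 + (35 : F) * x ^ 3 + (-16 : F) * x ^ 2 + (-2 : F) * x + (1 : F)) = 0 := by
    simp only [x0Fun] at hX; field_simp at hX; linear_combination hX
  have he : (2 * y - 1) * ((1 : F) * x ^ 6 + (-3 : F) * x ^ 5 + (1 : F) * x ^ 4 + (-3 : F) * x ^ 3 + (6 : F) * x ^ 2 + (-6 : F) * x + (2 : F)) - (-121 : F) * ((1 : F) * x ^ 6 + (-3 : F) * x ^ 5 + (3 : F) * x ^ 4 + (-1 : F) * x ^ 3) = 0 := by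
    simp only [x0Der] at hW; field_simp at hW; linear_combination hW
  have hy : y = (((-3 : F) / 11) * x ^ 4 + ((52 : F) / 11) * x ^ 3 + ((-74 : F) / 11) * x ^ 2 + ((17 : F) / 11) * x + ((10 : F) / 11)) := by
    linear_combination (((-665 : F) / 2662) * x ^ 4 + ((11611 : F) / 2662) * x ^ 3 + ((-8517 : F) / 1331) * x ^ 2 + ((951 : F) / 1331) * x + ((980 : F) / 1331)) * he + ((((665 : F) / 22) * x ^ 5 + ((-818 : F) / 11) * x ^ 4 + ((1139 : F) / 22) * x ^ 3 + ((-50 : F) / 11) * x ^ 2 + ((-26 : F) / 11) * x + ((-9 : F) / 22)) - (y - (1 : F) / 2) * (((-665 : F) / 1331) * x ^ 5 + ((1636 : F) / 1331) * x ^ 4 + ((191 : F) / 1331) * x ^ 3 + ((2148 : F) / 1331) * x ^ 2 + ((-2778 : F) / 1331) * x + ((2589 : F) / 1331))) * hq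
  have hxi : x * ((-1 : F) * x ^ 4 + (18 : F) * x ^ 3 + (-35 : F) * x ^ 2 + (16 : F) * x + (2 : F)) = 1 := by linear_combination ((-1 : F)) * hq
  have hyx : y / x = y * ((-1 : F) * x ^ 4 + (18 : F) * x ^ 3 + (-35 : F) * x ^ 2 + (16 : F) * x + (2 : F)) := by
    rw [div_eq_iff hx]; linear_combination (-y) * hxi
  have hs : 1 - y / x = (((10 : F) / 11) * x ^ 4 + ((-177 : F) / 11) * x ^ 3 + ((298 : F) / 11) * x ^ 2 + ((-86 : F) / 11) * x + ((-26 : F) / 11)) := by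
    rw [hyx, hy]; linear_combination (((-3 : F) / 11) * x ^ 3 + ((52 : F) / 11) * x ^ 2 + ((-74 : F) / 11) * x + ((17 : F) / 11)) * hq
  have hc' : c = (((-7 : F) / 11) * x ^ 4 + ((125 : F) / 11) * x ^ 3 + ((-213 : F) / 11) * x ^ 2 + ((58 : F) / 11) * x + ((27 : F) / 11)) := by
    rw [hc, hs, hy]; linear_combination (((30 : F) / 121) * x ^ 3 + ((-511 : F) / 121) * x ^ 2 + ((590 : F) / 121) * x + ((-37 : F) / 121)) * hq
  have hb' : b = (((3 : F) / 11) * x ^ 4 + ((3 : F) / 11) * x ^ 3 + ((-14 : F) / 11) * x ^ 2 + ((5 : F) / 11) * x + ((1 : F) / 11)) := by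
    rw [hb, mul_assoc, ← hc, hc', hy]; linear_combination (((-21 : F) / 121) * x ^ 3 + ((361 : F) / 121) * x ^ 2 + ((-424 : F) / 121) * x + ((16 : F) / 121)) * hq
  have h2 : (1 - c) ^ 2 - 4 * b = (((1 : F) / 11) * x ^ 4 + ((23 : F) / 11) * x ^ 3 + ((-56 : F) / 11) * x ^ 2 + ((20 : F) / 11) * x + ((26 : F) / 11)) := by
    rw [hc', hb']; linear_combination (((49 : F) / 121) * x ^ 3 + ((-868 : F) / 121) * x ^ 2 + ((1268 : F) / 121) * x + ((-74 : F) / 121)) * hq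
  have h4 : -(b * (1 - c)) = (((1051 : F) / 11) * x ^ 4 + ((-2249 : F) / 11) * x ^ 3 + ((1061 : F) / 11) * x ^ 2 + ((131 : F) / 11) * x + ((-64 : F) / 11)) := by
    rw [hc', hb']; linear_combination (((-21 : F) / 121) * x ^ 3 + ((-24 : F) / 121) * x ^ 2 + ((137 : F) / 121) * x + ((720 : F) / 121)) * hq
  have hd : tateDisc b c = (0 : F) := by
    rw [tateDisc, h2, h4, hb']; linear_combination (((27 : F) / 161051) * x ^ 15 + ((1809 : F) / 161051) * x ^ 14 + ((46305 : F) / 161051) * x ^ 13 + ((721656 : F) / 161051) * x ^ 12 + ((12066525 : F) / 161051) * x ^ 11 + ((19534824 : F) / 14641) * x ^ 10 + ((308368472 : F) / 14641) * x ^ 9 + ((4864942601 : F) / 14641) * x ^ 8 + ((-24984084977 : F) / 14641) * x ^ 7 + ((40793832621 : F) / 14641) * x ^ 6 + ((-25943029463 : F) / 14641) * x ^ 5 + ((27304781926 : F) / 161051) * x ^ 4 + ((35630097111 : F) / 161051) * x ^ 3 + ((-7472415372 : F) / 161051) * x ^ 2 + ((-1052466280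 : F) / 161051) * x + ((253591035 : F) / 161051)) * hq
  exact hd


end Fermat.Agent.Mazur.Eleven
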