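import Fermat.Agent.Mazur.Eleven.CubicField

/-!
`ℤ[u]` is the ring of integers of the cubic field of discriminant `-44`; it is principal and its
units are `±ξ^k`.
-/

set_option autoImplicit false

noncomputable section

open Polynomial NumberField NumberField.InfinitePlace
open scoped nonZeroDivisors Real

namespace Fermat.Agent.Mazur.Eleven

/-- `u` as an algebraic integer. -/
def uO : 𝓞 K11 := ⟨uK, isIntegral_uK⟩

/-- `a + b u + c u²` in the ring of integers. -/
def oel (a b c : ℤ) : 𝓞 K11 := (a : 𝓞 K11) + (b : 𝓞 K11) * uO + (c : 𝓞 K11) * uO ^ 2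

lemma map_uO : algebraMap (𝓞 K11) K11 uO = uK := rfl

lemma coe_oel (a b c : ℤ) : algebraMap (𝓞 K11) K11 (oel a b c) = el a b c := by
  simp only [oel, el, map_add, map_mul, map_pow, map_intCast, map_uO]

lemma oel_exists (z : 𝓞 K11) : ∃ a b c : ℤ, z = oel a b c := by
  obtain ⟨a, b, c, h⟩ := el_exists (z : K11)
  obtain ⟨i, j, k, ha, hb, hc⟩ := coords_int (h ▸ z.2 : IsIntegral ℤ (el a b c))
  exact ⟨i, j, k, RingOfIntegers.coe_injective (by rw [coe_oel, ← ha, ← hb, ← hc, ← h])⟩

lemma oel_inj {a b c a' b' c' : ℤ} (h : oel a b c = oel a' b' c') :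
    a = a' ∧ b = b' ∧ c = c' := by
  have h' := congrArg (algebraMap (𝓞 K11) K11) h
  simp only [coe_oel] at h'
  obtain ⟨h1, h2, h3⟩ := el_inj h'
  exact ⟨by exact_mod_cast h1, by exact_mod_cast h2, by exact_mod_cast h3⟩

lemma oel_mul (a b c a' b' c' : ℤ) :
    oel a b c * oel a' b' c' =
      oel (a * a' - 2 * (b * c' + c * b') - 4 * (c * c'))
        (a * b' + b * a' - 2 * (c * c'))
        (a * c' + b * b' + c * a' + 2 * (b * c' + c * b') + 4 * (c * c')) := by
  apply RingOfIntegers.coe_injective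
  rw [map_mul, coe_oel, coe_oel, coe_oel, el_mul]
  push_cast; rfl

lemma oel_add (a b c a' b' c' : ℤ) : oel a b c + oel a' b' c' = oel (a + a') (b + b') (c + c') := by
  simp only [oel, Int.cast_add]; ring

lemma oel_neg (a b c : ℤ) : -oel a b c = oel (-a) (-b) (-c) := by
  simp only [oel, Int.cast_neg]; ring

lemma oel_int (a : ℤ) : oel a 0 0 = (a : 𝓞 K11) := by simp [oel]

/-- The integral norm. -/
def oNorm : 𝓞 K11 →* ℚ := (Algebra.norm ℚ).comp (algebraMap (𝓞 K11) K11).toMonoidHom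

lemma oNorm_oel (a b c : ℤ) : oNorm (oel a b c) = ((nf a b c : ℤ) : ℚ) := by
  have h : oNorm (oel a b c) = nf (a : ℚ) b c := by
    change Algebra.norm ℚ (algebraMap (𝓞 K11) K11 (oel a b c)) = _
    rw [coe_oel, norm_el]
  rw [h]; simp only [nf_eq]; push_cast; ring

lemma oNorm_int (a : ℤ) : oNorm (a : 𝓞 K11) = (a : ℚ) ^ 3 := by
  rw [← oel_int, oNorm_oel]; simp only [nf_eq]; push_cast; ring

lemma oNorm_exists_int (z : 𝓞 K11) : ∃ k : ℤ, oNorm z = k := by
  obtain ⟨a, b, c, rfl⟩ := oel_exists z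
  exact ⟨_, oNorm_oel a b c⟩

lemma oNorm_isUnit {z : 𝓞 K11} (h : IsUnit z) : oNorm z = 1 ∨ oNorm z = -1 := by
  obtain ⟨w, hw⟩ := h.exists_right_inv
  obtain ⟨a, ha⟩ := oNorm_exists_int z
  obtain ⟨b, hb⟩ := oNorm_exists_int w
  have hab : a * b = 1 := by
    have := congrArg oNorm hw
    rw [map_mul, map_one, ha, hb] at this
    exact_mod_cast this
  rcases Int.eq_one_or_neg_one_of_mul_eq_one hab with h | h <;> simp [ha, h]

lemma isUnit_iff_oNorm {z : 𝓞 K11} : IsUnit z ↔ |oNorm z| = 1 := by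
  rw [NumberField.isUnit_iff_norm]; rfl

/-- The coordinate equivalence. -/
def coordEquiv : (Fin 3 → ℤ) ≃ₗ[ℤ] 𝓞 K11 :=
  LinearEquiv.ofBijective
    { toFun := fun v => oel (v 0) (v 1) (v 2)
      map_add' := fun v w => by simp [oel_add]
      map_smul' := fun r v => by simp [oel, zsmul_eq_mul]; ring }
    ⟨fun v w h => by
      obtain ⟨h1, h2, h3⟩ := oel_inj h
      funext i; fin_cases i <;> assumption,
     fun z => by
      obtain ⟨a, b, c, rfl⟩ := oel_exists z
      exact ⟨![a, b, c], rfl⟩⟩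

lemma coordEquiv_apply (v : Fin 3 → ℤ) : coordEquiv v = oel (v 0) (v 1) (v 2) := rfl

/-- The integral basis `1, u, u²`. -/
def bO : Module.Basis (Fin 3) ℤ (𝓞 K11) := Module.Basis.ofEquivFun coordEquiv.symm

lemma bO_apply (i : Fin 3) : algebraMap (𝓞 K11) K11 (bO i) = bK i := by
  rw [bK_apply, bO, Module.Basis.coe_ofEquivFun]
  simp only [LinearEquiv.symm_symm, coordEquiv_apply]
  rw [coe_oel]
  fin_cases i <;> simp [el]

lemma discr_bK : Algebra.discr ℚ bK = -44 := by
  have h0 : bK 0 = el 1 0 0 := by simp [bK_apply, el]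
  have h1 : bK 1 = el 0 1 0 := by simp [bK_apply, el]
  have h2 : bK 2 = el 0 0 1 := by simp [bK_apply, el]
  rw [Algebra.discr_def, Matrix.det_fin_three]
  simp only [Algebra.traceMatrix_apply, Algebra.traceForm_apply, h0, h1, h2, el_mul, trace_el]
  norm_num

lemma discr_K11 : NumberField.discr K11 = -44 := by
  have h1 : (NumberField.discr K11 : ℚ) = -44 := by
    rw [← NumberField.discr_eq_discr K11 bO,
      show ((Algebra.discr ℤ bO : ℤ) : ℚ) = algebraMap ℤ ℚ (Algebra.discr ℤ bO) by simp,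
      ← Algebra.discr_localizationLocalization ℤ ℤ⁰ K11 bO]
    rw [show ⇑(bO.localizationLocalization ℚ ℤ⁰ K11) = ⇑bK from funext fun i => by
      rw [Module.Basis.localizationLocalization_apply, bO_apply]]
    exact discr_bK
  exact_mod_cast h1

lemma nrComplexPlaces_K11 : nrComplexPlaces K11 = 1 := by
  have h := card_add_two_mul_card_eq_rank K11
  rw [finrank_K11] at h
  have hs := NumberField.sign_discr K11
  rw [discr_K11] at hs
  have : nrComplexPlaces K11 ≠ 0 := by
    intro h0; rw [h0, pow_zero] at hs; exact absurd hs (by decide)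
  omega

instance isPID_ringOfIntegers_K11 : IsPrincipalIdealRing (𝓞 K11) := by
  apply RingOfIntegers.isPrincipalIdealRing_of_abs_discr_lt
  rw [discr_K11, finrank_K11, nrComplexPlaces_K11]
  have := Real.pi_gt_three
  norm_num [Nat.factorial]
  nlinarith [sq_nonneg (π - 3)]

lemma rank_K11 : Units.rank K11 = 1 := by
  have h := card_add_two_mul_card_eq_rank K11
  rw [finrank_K11, nrComplexPlaces_K11] at h
  rw [Units.rank, InfinitePlace.card_eq_nrRealPlaces_add_nrComplexPlaces, nrComplexPlaces_K11]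
  omega

lemma odd_finrank_K11 : Odd (Module.finrank ℚ K11) := by rw [finrank_K11]; decide

/-- All units are `±ξ^k`. -/
lemma exists_generator : ∃ ξ : (𝓞 K11)ˣ, ∀ x : (𝓞 K11)ˣ, ∃ k : ℤ, x = ξ ^ k ∨ x = -ξ ^ k := by
  refine ⟨Units.fundSystem K11 ⟨0, by rw [rank_K11]; norm_num⟩, fun x => ?_⟩
  obtain ⟨⟨ζ, e⟩, he, -⟩ := Units.exist_unique_eq_mul_prod K11 x
  have hsub : Subsingleton (Fin (Units.rank K11)) := by
    rw [rank_K11]; infer_instance
  refine ⟨e ⟨0, by rw [rank_K11]; norm_num⟩, ?_⟩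
  rw [Finset.prod_eq_single (⟨0, by rw [rank_K11]; norm_num⟩ : Fin (Units.rank K11))
    (fun b _ hb => absurd (Subsingleton.elim b _) hb) (by simp)] at he
  rcases Units.torsion_eq_one_or_neg_one_of_odd_finrank odd_finrank_K11 ζ with h | h <;>
    simp [he, h]

end Fermat.Agent.Mazur.Eleven
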